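import Fermat.Agent.S56.GW.LEC.Seams
import Fermat.Agent.S56.GW.EC.Sh.Bridge

/-!
# [LEC-CYC] the inflated coinduced representation is the smooth coinduced module

`π : G →* Δ` surjective with kernel containing a level, `B ≤ Δ`, `U := B.comap π`,
`ρ : Representation (ZMod p) Δ M`.  Then the inflation along `π` of Mathlib's
`coind_B^Δ Res_B ρ` is `G`-equivariantly isomorphic to `s56esh_Coind L U (s56l_Infl π ρ)`
(`f ↦ f ∘ π`), hence by Shapiro its level cohomology is that of `U` with coefficients in `M`.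
-/

set_option autoImplicit false
set_option linter.unusedSectionVars false

namespace Fermat.Agent.S56

open Fermat.Agent.S55 groupCohomology

/-! ### Transport along an equivariant isomorphism of coefficient modules -/

section Transport

variable {G : Type*} [Group G] {L : LevelSys G} {X Y : Type*} [AddCommGroup X]
  [DistribMulAction G X] [AddCommGroup Y] [DistribMulAction G Y] (e : X ≃+ Y)
  (he : ∀ (g : G) (x : X), e (g • x) = g • e x)
include he

theorem s56lc_symm_equivariant (g : G) (y : Y) : e.symm (g • y) = g • e.symm y := by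
  apply e.injective
  rw [he, e.apply_symm_apply, e.apply_symm_apply]

theorem s56lc_coeff_H0_bijective :
    Function.Bijective (LvMor.ofCoeff L e.toAddMonoidHom he).H0 := by
  constructor
  · intro x y h
    apply Subtype.ext
    apply e.injective
    exact congrArg Subtype.val h
  · intro y
    refine ⟨⟨e.symm (y : Y), fun g => ?_⟩, ?_⟩
    · rw [← s56lc_symm_equivariant e he, y.2 g]
    · apply Subtype.ext
      exact e.apply_symm_apply _

theorem s56lc_coeff_comp_symm :
    (LvMor.ofCoeff L e.symm.toAddMonoidHom (s56lc_symm_equivariant e he)).comp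
      (LvMor.ofCoeff L e.toAddMonoidHom he) = LvMor.id L X := by
  apply s56esh_LvMor_ext
  · rfl
  · ext x
    exact e.symm_apply_apply x

theorem s56lc_coeff_symm_comp :
    (LvMor.ofCoeff L e.toAddMonoidHom he).comp
      (LvMor.ofCoeff L e.symm.toAddMonoidHom (s56lc_symm_equivariant e he)) = LvMor.id L Y := by
  apply s56esh_LvMor_ext
  · rfl
  · ext y
    exact e.apply_symm_apply y

theorem s56lc_coeff_H1_bijective :
    Function.Bijective (LvMor.ofCoeff L e.toAddMonoidHom he).H1 := by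
  refine Function.bijective_iff_has_inverse.2
    ⟨(LvMor.ofCoeff L e.symm.toAddMonoidHom (s56lc_symm_equivariant e he)).H1,
      fun y => ?_, fun y => ?_⟩
  · rw [← LvMor.H1_comp, s56lc_coeff_comp_symm, LvMor.H1_id]
  · rw [← LvMor.H1_comp, s56lc_coeff_symm_comp, LvMor.H1_id]

theorem s56lc_coeff_H2_bijective :
    Function.Bijective (LvMor.ofCoeff L e.toAddMonoidHom he).H2 := by
  refine Function.bijective_iff_has_inverse.2
    ⟨(LvMor.ofCoeff L e.symm.toAddMonoidHom (s56lc_symm_equivariant e he)).H2,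
      fun y => ?_, fun y => ?_⟩
  · rw [← LvMor.H2_comp, s56lc_coeff_comp_symm, LvMor.H2_id]
  · rw [← LvMor.H2_comp, s56lc_coeff_symm_comp, LvMor.H2_id]

end Transport

/-! ### The identification -/

section Id

variable {p : ℕ} [Fact p.Prime] {G Δ : Type} [Group G] [Group Δ] (L : LevelSys G) (π : G →* Δ)
  {M : Type} [AddCommGroup M] [Module (ZMod p) M] (ρ : Representation (ZMod p) Δ M)
  (B : Subgroup Δ)

/-- The inflated coinduced module. -/
abbrev s56lc_X : Type := s56l_Infl π (Representation.coind B.subtype (s56ei_res ρ B))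

variable {π ρ B} in
theorem s56lc_X_smul_apply (g : G) (f : s56lc_X π ρ B) (δ : Δ) :
    ((g • f : s56lc_X π ρ B) : Representation.coindV B.subtype (s56ei_res ρ B)).1 δ =
      (f : Representation.coindV B.subtype (s56ei_res ρ B)).1 (δ * π g) := rfl

variable {L π ρ B} in
theorem s56lc_theta_mem (hker : ∃ W₀ ∈ L.levels, W₀ ≤ π.ker) (f : s56lc_X π ρ B) :
    (fun x : G => s56l_Infl.of π ρ
        ((f : Representation.coindV B.subtype (s56ei_res ρ B)).1 (π x))) ∈
      s56esh_coind L (B.comap π) (s56l_Infl π ρ) := by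
  refine ⟨fun u x => ?_, ?_⟩
  · show s56l_Infl.of π ρ
        ((f : Representation.coindV B.subtype (s56ei_res ρ B)).1 (π ((u : G) * x))) =
      (u : G) • s56l_Infl.of π ρ
        ((f : Representation.coindV B.subtype (s56ei_res ρ B)).1 (π x))
    rw [map_mul]
    have := (f : Representation.coindV B.subtype (s56ei_res ρ B)).2 ⟨π (u : G), u.2⟩ (π x)
    rw [show (B.subtype ⟨π (u : G), u.2⟩ : Δ) = π (u : G) from rfl] at this
    rw [this]
    rfl
  · obtain ⟨W₀, hW₀, hW₀k⟩ := hker
    refine ⟨W₀, hW₀, fun x w hw => ?_⟩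
    show s56l_Infl.of π ρ _ = s56l_Infl.of π ρ _
    rw [map_mul, MonoidHom.mem_ker.1 (hW₀k hw), mul_one]

/-- `f ↦ f ∘ π`. -/
def s56lc_theta (hker : ∃ W₀ ∈ L.levels, W₀ ≤ π.ker) :
    s56lc_X π ρ B →+ s56esh_Coind L (B.comap π) (s56l_Infl π ρ) where
  toFun f := ⟨_, s56lc_theta_mem hker f⟩
  map_zero' := s56esh_coind_ext fun _ => rfl
  map_add' _ _ := s56esh_coind_ext fun _ => rfl

variable {L π ρ B}

theorem s56lc_theta_apply (hker : ∃ W₀ ∈ L.levels, W₀ ≤ π.ker) (f : s56lc_X π ρ B) (x : G) :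
    ((s56lc_theta L π ρ B hker f : s56esh_Coind L (B.comap π) (s56l_Infl π ρ)) :
        G → s56l_Infl π ρ) x =
      s56l_Infl.of π ρ ((f : Representation.coindV B.subtype (s56ei_res ρ B)).1 (π x)) := rfl

theorem s56lc_theta_equivariant (hker : ∃ W₀ ∈ L.levels, W₀ ≤ π.ker) (g : G)
    (f : s56lc_X π ρ B) :
    s56lc_theta L π ρ B hker (g • f) = g • s56lc_theta L π ρ B hker f :=
  s56esh_coind_ext fun x => by
    rw [s56esh_smul_apply, s56lc_theta_apply, s56lc_theta_apply, s56lc_X_smul_apply, map_mul]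

/-- Elements of the smooth coinduced module factor through `π`. -/
theorem s56lc_coind_factor (φ : s56esh_Coind L (B.comap π) (s56l_Infl π ρ)) {x y : G}
    (h : π x = π y) : (φ : G → s56l_Infl π ρ) y = (φ : G → s56l_Infl π ρ) x := by
  have hu : y * x⁻¹ ∈ B.comap π := by
    show π (y * x⁻¹) ∈ B
    rw [map_mul, map_inv, h, mul_inv_cancel]
    exact B.one_mem
  have e : y = ((⟨y * x⁻¹, hu⟩ : B.comap π) : G) * x := by simp
  conv_lhs => rw [e, s56esh_coind_equiv]
  show (y * x⁻¹) • (φ : G → s56l_Infl π ρ) x = _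
  rw [s56l_Infl.smul_def, map_mul, map_inv, h, mul_inv_cancel, map_one]
  rfl

theorem s56lc_theta_bijective (hπ : Function.Surjective π)
    (hker : ∃ W₀ ∈ L.levels, W₀ ≤ π.ker) :
    Function.Bijective (s56lc_theta L π ρ B hker) := by
  constructor
  · intro f f' h
    apply Subtype.ext
    funext δ
    obtain ⟨x, rfl⟩ := hπ δ
    have := congrArg (fun t : s56esh_Coind L (B.comap π) (s56l_Infl π ρ) =>
      (t : G → s56l_Infl π ρ) x) h
    exact this
  · intro φ
    have hmem : (fun δ : Δ => (s56l_Infl.of π ρ).symm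
        ((φ : G → s56l_Infl π ρ) (Function.surjInv hπ δ))) ∈
        Representation.coindV B.subtype (s56ei_res ρ B) := by
      intro b δ
      have hb : Function.surjInv hπ (b : Δ) ∈ B.comap π := by
        show π (Function.surjInv hπ (b : Δ)) ∈ B
        rw [Function.surjInv_eq hπ]
        exact b.2
      have h1 : π (((⟨_, hb⟩ : B.comap π) : G) * Function.surjInv hπ δ) =
          π (Function.surjInv hπ ((b : Δ) * δ)) := by
        rw [map_mul, Function.surjInv_eq hπ, Function.surjInv_eq hπ]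
        exact (Function.surjInv_eq hπ _).symm
      show (s56l_Infl.of π ρ).symm ((φ : G → s56l_Infl π ρ)
          (Function.surjInv hπ ((b : Δ) * δ))) = _
      rw [s56lc_coind_factor φ h1, s56esh_coind_equiv]
      show (s56l_Infl.of π ρ).symm ((Function.surjInv hπ (b : Δ)) •
          (φ : G → s56l_Infl π ρ) (Function.surjInv hπ δ)) = _
      rw [s56l_Infl.smul_def, Function.surjInv_eq hπ]
      rfl
    refine ⟨s56l_Infl.of π (Representation.coind B.subtype (s56ei_res ρ B)) ⟨_, hmem⟩, ?_⟩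
    apply s56esh_coind_ext
    intro x
    rw [s56lc_theta_apply]
    show s56l_Infl.of π ρ ((s56l_Infl.of π ρ).symm
      ((φ : G → s56l_Infl π ρ) (Function.surjInv hπ (π x)))) = _
    rw [AddEquiv.apply_symm_apply]
    exact s56lc_coind_factor φ (Function.surjInv_eq hπ (π x)).symm

/-! ### Consequences for the level cohomology -/

theorem s56lc_infl_smooth (hker : ∃ W₀ ∈ L.levels, W₀ ≤ π.ker) : L.IsSmooth (s56l_Infl π ρ) := by
  obtain ⟨W₀, hW₀, hW₀k⟩ := hker
  intro m
  refine ⟨W₀, hW₀, fun w hw => ?_⟩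
  rw [s56l_Infl.smul_def, MonoidHom.mem_ker.1 (hW₀k hw), map_one]
  rfl

theorem s56lc_hU (hker : ∃ W₀ ∈ L.levels, W₀ ≤ π.ker) : ∃ V ∈ L.levels, V ≤ B.comap π := by
  obtain ⟨W₀, hW₀, hW₀k⟩ := hker
  refine ⟨W₀, hW₀, fun w hw => ?_⟩
  show π w ∈ B
  rw [MonoidHom.mem_ker.1 (hW₀k hw)]
  exact B.one_mem

/-- The isomorphism `Θ` as an `AddEquiv`. -/
noncomputable def s56lc_thetaEquiv (hπ : Function.Surjective π)
    (hker : ∃ W₀ ∈ L.levels, W₀ ≤ π.ker) :
    s56lc_X π ρ B ≃+ s56esh_Coind L (B.comap π) (s56l_Infl π ρ) :=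
  AddEquiv.ofBijective (s56lc_theta L π ρ B hker) (s56lc_theta_bijective hπ hker)

theorem s56lc_thetaEquiv_equivariant (hπ : Function.Surjective π)
    (hker : ∃ W₀ ∈ L.levels, W₀ ≤ π.ker) (g : G) (f : s56lc_X π ρ B) :
    s56lc_thetaEquiv (L := L) hπ hker (g • f) = g • s56lc_thetaEquiv (L := L) hπ hker f :=
  s56lc_theta_equivariant hker g f

/-- Shapiro for the inflated coinduced representation, degree 0. -/
theorem s56lc_H0_bijective (hπ : Function.Surjective π) (hker : ∃ W₀ ∈ L.levels, W₀ ≤ π.ker) :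
    ∃ e : lvH0 (G := G) (s56lc_X π ρ B) → lvH0 (G := ↥(B.comap π)) (s56l_Infl π ρ),
      Function.Bijective e :=
  ⟨_, (s56esh_H0_bijective (L := L) (U := B.comap π) (N := s56l_Infl π ρ)).comp
    (s56lc_coeff_H0_bijective (L := L) (s56lc_thetaEquiv (L := L) hπ hker)
      (s56lc_thetaEquiv_equivariant hπ hker))⟩

/-- Shapiro for the inflated coinduced representation, degree 1. -/
theorem s56lc_H1_bijective (hπ : Function.Surjective π) (hker : ∃ W₀ ∈ L.levels, W₀ ≤ π.ker) :
    ∃ e : lvH1 L (s56lc_X π ρ B) → lvH1 (s56esh_LU L (B.comap π)) (s56l_Infl π ρ),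
      Function.Bijective e :=
  ⟨_, (s56esh_H1_bijective (L := L) (U := B.comap π) (N := s56l_Infl π ρ) (s56lc_hU hker)
      (s56esh_smooth_res (s56lc_infl_smooth hker))).comp
    (s56lc_coeff_H1_bijective (L := L) (s56lc_thetaEquiv (L := L) hπ hker)
      (s56lc_thetaEquiv_equivariant hπ hker))⟩

/-- Shapiro for the inflated coinduced representation, degree 2. -/
theorem s56lc_H2_bijective (hπ : Function.Surjective π) (hker : ∃ W₀ ∈ L.levels, W₀ ≤ π.ker) :
    ∃ e : lvH2 L (s56lc_X π ρ B) → lvH2 (s56esh_LU L (B.comap π)) (s56l_Infl π ρ),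
      Function.Bijective e :=
  ⟨_, (s56esh_H2_bijective (L := L) (U := B.comap π) (N := s56l_Infl π ρ) (s56lc_hU hker)
      (s56esh_smooth_res (s56lc_infl_smooth hker))).comp
    (s56lc_coeff_H2_bijective (L := L) (s56lc_thetaEquiv (L := L) hπ hker)
      (s56lc_thetaEquiv_equivariant hπ hker))⟩

theorem s56lc_card_H0 (hπ : Function.Surjective π) (hker : ∃ W₀ ∈ L.levels, W₀ ≤ π.ker) :
    Nat.card (lvH0 (G := G) (s56lc_X π ρ B)) =
      Nat.card (lvH0 (G := ↥(B.comap π)) (s56l_Infl π ρ)) := by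
  obtain ⟨e, he⟩ := s56lc_H0_bijective (L := L) (ρ := ρ) (B := B) hπ hker
  exact Nat.card_congr (Equiv.ofBijective e he)

theorem s56lc_card_H1 (hπ : Function.Surjective π) (hker : ∃ W₀ ∈ L.levels, W₀ ≤ π.ker) :
    Nat.card (lvH1 L (s56lc_X π ρ B)) =
      Nat.card (lvH1 (s56esh_LU L (B.comap π)) (s56l_Infl π ρ)) := by
  obtain ⟨e, he⟩ := s56lc_H1_bijective (L := L) (ρ := ρ) (B := B) hπ hker
  exact Nat.card_congr (Equiv.ofBijective e he)

theorem s56lc_card_H2 (hπ : Function.Surjective π) (hker : ∃ W₀ ∈ L.levels, W₀ ≤ π.ker) :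
    Nat.card (lvH2 L (s56lc_X π ρ B)) =
      Nat.card (lvH2 (s56esh_LU L (B.comap π)) (s56l_Infl π ρ)) := by
  obtain ⟨e, he⟩ := s56lc_H2_bijective (L := L) (ρ := ρ) (B := B) hπ hker
  exact Nat.card_congr (Equiv.ofBijective e he)

end Id

end Fermat.Agent.S56
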