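import Fermat.Agent.S56.GW.LEC.Cyc.CoindId

/-!
# [LEC-CYC] `s56l_Fin_stmt → s56l_Base_stmt → s56l_Cyc_stmt`

The Euler characteristic defect `s56l_f` vanishes on the base class
`coind_B^Δ Res_B ρ`, `Δ = G_q ⧸ W`, `p ∤ #B`: Shapiro (`s56lc_card_H*`) + the base case over
`U = B.comap (mk' W)`.
-/

set_option autoImplicit false
set_option linter.unusedSectionVars false

namespace Fermat.Agent.S56

open Fermat.Agent.S55 groupCohomology ExtCitation

/-- A finite additive group killed by `p` has `p`-power order. -/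
theorem s56lc_card_pow {A : Type*} [AddCommGroup A] [Finite A] {p : ℕ} [Fact p.Prime]
    (h : ∀ a : A, p • a = 0) : ∃ k : ℕ, Nat.card A = p ^ k := by
  let _ : Module (ZMod p) A := AddCommGroup.zmodModule h
  have : Module.Finite (ZMod p) A := Module.Finite.of_finite
  exact ⟨Module.finrank (ZMod p) A, by
    rw [Module.natCard_eq_pow_finrank (K := ZMod p) (V := A), Nat.card_zmod]⟩

theorem s56lc_lvH0_tors {G : Type*} [Group G] {X : Type*} [AddCommGroup X] [DistribMulAction G X]
    {p : ℕ} (h : ∀ x : X, p • x = 0) (y : lvH0 (G := G) X) : p • y = 0 :=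
  Subtype.ext (h y)

theorem s56lc_lvH1_tors {G : Type*} [Group G] {L : LevelSys G} {X : Type*} [AddCommGroup X]
    [DistribMulAction G X] {p : ℕ} (h : ∀ x : X, p • x = 0) (y : lvH1 L X) : p • y = 0 := by
  obtain ⟨c, rfl⟩ := lvH1mk_surjective y
  rw [← map_nsmul]
  convert map_zero (lvH1mk L X)
  apply Subtype.ext
  funext g
  rw [AddSubgroup.coe_nsmul, Pi.smul_apply, h]
  rfl

theorem s56lc_lvH2_tors {G : Type*} [Group G] {L : LevelSys G} {X : Type*} [AddCommGroup X]
    [DistribMulAction G X] {p : ℕ} (h : ∀ x : X, p • x = 0) (y : lvH2 L X) : p • y = 0 := by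
  obtain ⟨c, rfl⟩ := lvH2mk_surjective y
  rw [← map_nsmul]
  convert map_zero (lvH2mk L X)
  apply Subtype.ext
  funext g
  rw [AddSubgroup.coe_nsmul, Pi.smul_apply, h]
  rfl

/-- `p • m = 0` in a `ZMod p`-module. -/
theorem s56lc_zmod_tors {p : ℕ} {M : Type*} [AddCommGroup M] [Module (ZMod p) M] (m : M) :
    p • m = 0 := by
  rw [← Nat.cast_smul_eq_nsmul (ZMod p), ZMod.natCast_self, zero_smul]

section Index

variable {G Δ : Type*} [Group G] [Group Δ] (π : G →* Δ) (hπ : Function.Surjective π)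
  (B : Subgroup Δ)
include hπ

theorem s56lc_relIndex : (π.ker.subgroupOf (B.comap π)).index = Nat.card B := by
  have h1 : π.ker = (⊥ : Subgroup Δ).comap π := (MonoidHom.comap_bot π).symm
  show π.ker.relIndex (B.comap π) = Nat.card B
  rw [h1, Subgroup.relIndex_comap, Subgroup.map_comap_eq_self_of_surjective hπ,
    Subgroup.relIndex_bot_left]

theorem s56lc_index : (B.comap π).index = Nat.card (Δ ⧸ B) := by
  rw [Subgroup.index_comap_of_surjective B hπ, Subgroup.index_eq_card]

end Index

/-- The dimension of the coinduced representation. -/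
theorem s56lc_finrank_coind {p : ℕ} [Fact p.Prime] {Δ : Type} [Group Δ] [Finite Δ] {M : Type}
    [AddCommGroup M] [Module (ZMod p) M] [Module.Finite (ZMod p) M]
    (ρ : Representation (ZMod p) Δ M) (B : Subgroup Δ) :
    Module.finrank (ZMod p) (Representation.coindV B.subtype (s56ei_res ρ B)) =
      Nat.card (Δ ⧸ B) * Module.finrank (ZMod p) M := by
  let _ : Fintype (Δ ⧸ B) := Fintype.ofFinite _
  rw [← LinearEquiv.finrank_eq
    (LinearEquiv.ofBijective (s56ei_frobMap ρ B) (s56ei_frobMap_bijective ρ B)),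
    Module.finrank_pi_fintype, Finset.sum_const, Finset.card_univ, smul_eq_mul,
    Nat.card_eq_fintype_card]

/-- **[LEC-CYC]**. -/
theorem s56lc_main (hFin : s56l_Fin_stmt) (hBase : s56l_Base_stmt) : s56l_Cyc_stmt := by
  intro p _ hp2 q W _ hWlev hWmu B hB M _ _ _ ρ
  have hp : p.Prime := Fact.out
  set L := tl_levelsLoc q with hL
  set π := QuotientGroup.mk' W with hπdef
  have hπ : Function.Surjective π := QuotientGroup.mk'_surjective W
  have hkerW : π.ker = W := QuotientGroup.ker_mk' W
  have hker : ∃ W₀ ∈ L.levels, W₀ ≤ π.ker := ⟨W, hWlev, hkerW.ge⟩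
  have hfinΔ : Finite (primeLocalGaloisGroup q ⧸ W) := by
    have := L.finiteIndex W hWlev
    infer_instance
  have hfinM : Finite M := Module.finite_of_finite (ZMod p)
  -- the base case over `U`
  have hWU : W ≤ B.comap π := by
    intro w hw
    show π w ∈ B
    rw [show π w = 1 from (QuotientGroup.eq_one_iff w).2 hw]
    exact B.one_mem
  have hidx : ¬ p ∣ (W.subgroupOf (B.comap π)).index := by
    have := s56lc_relIndex π hπ B
    rw [hkerW] at this
    rw [this]
    exact (Nat.Prime.coprime_iff_not_dvd hp).1 hB.symm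
  have hBH : s56l_BaseHyp p q W (B.comap π) :=
    ⟨inferInstance, ⟨W, hWlev, le_rfl⟩, hWU, hidx, hWmu⟩
  have hCH : s56l_CoefHyp p W (B.comap π) (s56l_Infl π ρ) := by
    refine ⟨inferInstance, fun n => s56lc_zmod_tors n, fun u hu n => ?_⟩
    show (u : primeLocalGaloisGroup q) • n = n
    rw [s56l_Infl.smul_def, show π (u : primeLocalGaloisGroup q) = 1 from
      (QuotientGroup.eq_one_iff _).2 hu, map_one]
    rfl
  have hbase := hBase p hp2 q W (B.comap π) hBH (s56l_Infl π ρ) hCH
  -- finiteness for `X`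
  have hXfin : Finite (s56lc_X π ρ B) := by
    show Finite (Representation.coindV B.subtype (s56ei_res ρ B))
    infer_instance
  have hXtors : ∀ x : s56lc_X π ρ B, p • x = 0 := fun x => s56lc_zmod_tors x
  have hXsm : L.IsSmooth (s56lc_X π ρ B) := s56lc_infl_smooth hker
  obtain ⟨hf1, hf2⟩ := hFin p q (s56lc_X π ρ B) hXtors hXsm
  have hf0 : Finite (lvH0 (G := primeLocalGaloisGroup q) (s56lc_X π ρ B)) := inferInstance
  obtain ⟨k0, hk0⟩ := s56lc_card_pow (p := p) (s56lc_lvH0_tors (G := primeLocalGaloisGroup q) hXtors)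
  obtain ⟨k1, hk1⟩ := s56lc_card_pow (p := p) (s56lc_lvH1_tors (L := L) hXtors)
  obtain ⟨k2, hk2⟩ := s56lc_card_pow (p := p) (s56lc_lvH2_tors (L := L) hXtors)
  have hcardM : Nat.card (s56l_Infl π ρ) = p ^ Module.finrank (ZMod p) M := by
    show Nat.card M = _
    rw [Module.natCard_eq_pow_finrank (K := ZMod p) (V := M), Nat.card_zmod]
  rw [← s56lc_card_H0 (L := L) hπ hker, ← s56lc_card_H1 (L := L) hπ hker,
    ← s56lc_card_H2 (L := L) hπ hker, hk0, hk1, hk2, hcardM, s56lc_index π hπ B] at hbase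
  -- the goal
  unfold s56l_f
  show ((Nat.log p (Nat.card (lvH1 L (s56lc_X π ρ B))) : ℕ) : ℤ) -
      (Nat.log p (Nat.card (lvH0 (G := primeLocalGaloisGroup q) (s56lc_X π ρ B))) : ℕ) -
      (Nat.log p (Nat.card (lvH2 L (s56lc_X π ρ B))) : ℕ) -
      (if q = pPrime p then
        (Module.finrank (ZMod p) (Representation.coindV B.subtype (s56ei_res ρ B)) : ℤ)
        else 0) = 0
  rw [hk0, hk1, hk2, Nat.log_pow hp.one_lt, Nat.log_pow hp.one_lt, Nat.log_pow hp.one_lt,
    s56lc_finrank_coind ρ B]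
  by_cases hq : q = pPrime p
  · rw [if_pos hq] at hbase ⊢
    rw [← pow_mul, ← pow_add, ← pow_add] at hbase
    have := Nat.pow_right_injective hp.two_le hbase
    push_cast
    rw [this]
    push_cast
    ring
  · rw [if_neg hq] at hbase ⊢
    rw [mul_one, ← pow_add] at hbase
    have := Nat.pow_right_injective hp.two_le hbase
    rw [this]
    push_cast
    ring

end Fermat.Agent.S56
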